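import Fermat.Agent.MF.CosetCount
import Fermat.Agent.MF.DedekindPsi
import Fermat.Agent.MC.Lvl.Field

/-!
# The function field of `X₀(N)` over a subfield of `ℂ`

The field generated by the `j (d τ)`, `d ∣ N`, is the field of the level `Γ₀(N)`; the facts about
the latter are read on it.

`finrank_FN` and `isFunctionField_FN`; this is `X₀(N)` in `JAC/X0`, `HT` and `BAD`.
-/

set_option autoImplicit false

noncomputable section

open Function Polynomial IntermediateField
open CongruenceSubgroup
open ModularCurve (coeffEmb coeffMap qExpand jq laurentBaseChange modularFunctionFieldFull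
  coeffEmb_mem_laurentBaseChange)

namespace Fermat.MC

variable (N : ℕ) [NeZero N]

omit [NeZero N] in
/-- `Γ₀(N)` lies in `Γ₀(d)` for `d ∣ N`. -/
lemma Gamma0_le_of_dvd {d : ℕ} (hd : d ∣ N) : Gamma0 N ≤ Gamma0 d := fun γ hγ => by
  rw [Gamma0_mem, ZMod.intCast_zmod_eq_zero_iff_dvd] at hγ ⊢
  exact dvd_trans (Int.natCast_dvd_natCast.mpr hd) hγ

omit [NeZero N] in
/-- Modular functions of level `d` are of level `N` for `d ∣ N`. -/
lemma W_le_of_dvd {d : ℕ} (hd : d ∣ N) : W d ≤ W N := Lvl.W_anti (Gamma0_le_of_dvd N hd)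

/-- The index of `Γ₀(N)` is `ψ(N)`. -/
theorem psiN_eq_dedekindPsi : psiN N = ModularCurve.dedekindPsi N := Fermat.MF.card_cosetX N

/-- For `Γ₀(N)` the rational field is that generated by the `j (d τ)`. -/
theorem Lvl.FQ_Gamma0 : FQ (Gamma0 N) = modularFunctionFieldFull N := by
  refine le_antisymm ?_ (adjoin_le_iff.mpr ?_)
  · rw [FQ_eq_adjoin]
    exact ModularCurve.modularFunctionField_le_full N
  · rintro x ⟨d, hne, hd, rfl⟩
    have := hne
    exact mem_FQ_of_qW _ ⟨jN d, W_le_of_dvd N hd (jN_mem_W d)⟩ (qW_jN d)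

variable (L : Type*) [Field L] [Algebra ℚ L]

/-- The function field of level `N` over `L`. -/
abbrev FN : IntermediateField L (LaurentSeries L) :=
  laurentBaseChange L (modularFunctionFieldFull N)

/-- At `Γ₀(N)` the field of the level is that of `X₀(N)`. -/
theorem Lvl.FL_Gamma0 : FL (Gamma0 N) L = FN N L := by
  show laurentBaseChange L _ = laurentBaseChange L _
  rw [FQ_Gamma0]

omit [Algebra ℚ L] in
/-- Identification of equal intermediate fields keeps the series. -/
lemma coe_equivOfEq {E F : IntermediateField L (LaurentSeries L)} (h : E = F) (x : E) :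
    ((equivOfEq h x : F) : LaurentSeries L) = x := by subst h; rfl

/-- The function field of `X₀(N)` as that of the level `Γ₀(N)`. -/
def toFL : FN N L ≃ₐ[L] Lvl.FL (Gamma0 N) L :=
  IntermediateField.equivOfEq (Lvl.FL_Gamma0 N L).symm

/-- The identification keeps the series. -/
lemma coe_toFL (x : FN N L) : ((toFL N L x : Lvl.FL (Gamma0 N) L) : LaurentSeries L) = x :=
  coe_equivOfEq L _ x

/-- The series of `j` is in the function field. -/
lemma jq_mem_FN : coeffEmb L jq ∈ FN N L :=
  coeffEmb_mem_laurentBaseChange L (ModularCurve.modularFunctionField_le_full N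
    (ModularCurve.jq_mem N))

/-- `j` in the function field. -/
def jL : FN N L := ⟨coeffEmb L jq, jq_mem_FN N L⟩

/-- `j (N τ)` in the function field. -/
def jNL : FN N L := ⟨coeffEmb L (qExpand ℚ N jq), coeffEmb_mem_laurentBaseChange L
  (ModularCurve.modularFunctionField_le_full N (ModularCurve.jqN_mem N))⟩

/-- The function field is generated over `L` by `j` and `j (N τ)`. -/
theorem FN_eq_adjoin : FN N L = adjoin L {coeffEmb L jq, coeffEmb L (qExpand ℚ N jq)} :=
  (Lvl.FL_Gamma0 N L).symm.trans (Lvl.FL_eq_adjoin _ L)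

/-- The identification keeps `j`. -/
lemma toFL_jL : toFL N L (jL N L) = Lvl.jL (Gamma0 N) L :=
  Subtype.ext ((coe_toFL N L _).trans
    (show (jL N L : LaurentSeries L) = coeffEmb L jq from rfl))

/-- The identification sends `j (N τ)` to the generator. -/
lemma toFL_jNL : toFL N L (jNL N L) = Lvl.yL (Gamma0 N) L :=
  Subtype.ext ((coe_toFL N L _).trans
    (show (jNL N L : LaurentSeries L) = coeffEmb L (qExpand ℚ N jq) from rfl))

variable {L} (ι : L →+* ℂ)

/-- The embedding into the field of meromorphic modular functions. -/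
def toKW : FN N L →+* Lvl.KW (Gamma0 N) :=
  (Lvl.toKW (Gamma0 N) ι).comp (toFL N L).toRingHom

/-- The embedding read at the level `Γ₀(N)`. -/
lemma toKW_apply (x : FN N L) : toKW N ι x = Lvl.toKW (Gamma0 N) ι (toFL N L x) := by
  rw [toKW, RingHom.comp_apply]; rfl

/-- The embedding preserves expansions. -/
lemma qK_toKW (x : FN N L) :
    Lvl.qK (Gamma0 N) (toKW N ι x) = coeffMap ι (x : LaurentSeries L) := by
  rw [toKW_apply, Lvl.qK_toKW, coe_toFL]

/-- The embedding acts on constants by `ι`. -/
lemma toKW_algebraMap (c : L) :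
    toKW N ι (algebraMap L (FN N L) c) =
      algebraMap (W N) (Lvl.KW (Gamma0 N)) (algebraMap ℂ (W N) (ι c)) := by
  rw [toKW_apply, AlgEquiv.commutes, Lvl.toKW_algebraMap]

/-- The expansion of a function along an expansion of modular functions. -/
def tau (ev : W N →+* LaurentSeries ℂ) (hev : Injective ev) : FN N L →+* LaurentSeries ℂ :=
  (IsFractionRing.lift (A := W N) (K := Lvl.KW (Gamma0 N)) (g := ev) hev).comp (toKW N ι)

/-- The expansion read at the level `Γ₀(N)`. -/
lemma tau_apply (ev : W N →+* LaurentSeries ℂ) (hev : Injective ev) (x : FN N L) :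
    tau N ι ev hev x = Lvl.tau (Gamma0 N) ι ev hev (toFL N L x) := by
  rw [tau, Lvl.tau, RingHom.comp_apply, RingHom.comp_apply, toKW_apply]

/-- The expansion of a function that is holomorphic on the half plane. -/
lemma tau_of_toKW (ev : W N →+* LaurentSeries ℂ) (hev : Injective ev) {x : FN N L} {f : W N}
    (h : toKW N ι x = algebraMap (W N) (Lvl.KW (Gamma0 N)) f) : tau N ι ev hev x = ev f := by
  rw [tau_apply, Lvl.tau_of_toKW (Gamma0 N) ι ev hev (f := f) (by rw [← toKW_apply, h])]

/-- The expansion of `j`. -/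
lemma tau_jL (ev : W N →+* LaurentSeries ℂ) (hev : Injective ev) :
    tau N ι ev hev (jL N L) = ev (Lvl.jW (Gamma0 N)) := by
  rw [tau_apply, toFL_jL, Lvl.tau_jL]

/-- The expansion of `j_N`. -/
lemma tau_jNL (ev : W N →+* LaurentSeries ℂ) (hev : Injective ev) :
    tau N ι ev hev (jNL N L) = ev (Lvl.genY (Gamma0 N)) := by
  rw [tau_apply, toFL_jNL, Lvl.tau_yL]

/-- The order along any expansion is the difference of those of a numerator and denominator. -/
lemma ordT_tau {x : FN N L} (hx : x ≠ 0) :
    ∃ a b : W N, a ≠ 0 ∧ b ≠ 0 ∧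
      toKW N ι x = algebraMap (W N) (Lvl.KW (Gamma0 N)) a /
        algebraMap (W N) (Lvl.KW (Gamma0 N)) b ∧
      ∀ (ev : W N →+* LaurentSeries ℂ) (hev : Injective ev),
        ordT (tau N ι ev hev) x = (ev a).order - (ev b).order :=
  exists_ordT_lift (toKW N ι) hx

/-- The expansion at the point `z` of the conjugate `q`. -/
def tauPt (z : UpperHalfPlane) (q : CosetN N) : FN N L →+* LaurentSeries ℂ :=
  tau N ι (Lvl.evPtQ (Gamma0 N) z q) (Lvl.evPtQ_injective (Gamma0 N) z q)

/-- The expansion at a point read at the level `Γ₀(N)`. -/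
lemma tauPt_apply (z : UpperHalfPlane) (q : CosetN N) (x : FN N L) :
    tauPt N ι z q x = Lvl.tauPt (Gamma0 N) ι z q (toFL N L x) :=
  tau_apply N ι _ _ x

/-- The expansion of a constant at a point. -/
lemma tauPt_algebraMap (z : UpperHalfPlane) (q : CosetN N) (c : L) :
    tauPt N ι z q (algebraMap L (FN N L) c) = algebraMap ℂ (LaurentSeries ℂ) (ι c) := by
  rw [tauPt_apply, AlgEquiv.commutes, Lvl.tauPt_algebraMap]

/-- Nonzero constants have order zero at every point. -/
lemma ordT_tauPt_algebraMap (z : UpperHalfPlane) (q : CosetN N) {c : L} (hc : c ≠ 0) :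
    ordT (tauPt N ι z q) (algebraMap L (FN N L) c) = 0 := by
  rw [ordT, tauPt_algebraMap, order_algebraMap_C ((map_ne_zero ι).mpr hc)]

/-- `j` has the same expansion at all conjugates of a point. -/
lemma tauPt_jL (z : UpperHalfPlane) (q q' : CosetN N) :
    tauPt N ι z q (jL N L) = tauPt N ι z q' (jL N L) := by
  rw [tauPt_apply, tauPt_apply, toFL_jL, Lvl.tauPt_jL]

/-- `j_N` has distinct expansions at the conjugates of a point. -/
lemma tauPt_injective (z : UpperHalfPlane) : Injective fun q => tauPt N ι z q (jNL N L) := by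
  simp only [tauPt_apply, toFL_jNL]
  exact Lvl.tauPt_injective (Gamma0 N) ι z

section Degree

variable [IsAlgClosed L]

/-- `j` is transcendental. -/
lemma transcendental_jL : Transcendental L (jL N L) :=
  transcendental_of_coe_eq_jq rfl

include ι

omit [IsAlgClosed L] in
/-- The function field has degree the index of `Γ₀(N)` over `L(j)`. -/
theorem finrank_FN : Module.finrank L⟮jL N L⟯ (FN N L) = psiN N ∧
    FiniteDimensional L⟮jL N L⟯ (FN N L) := by
  suffices h : ∀ E, E = Lvl.FL (Gamma0 N) L → ∀ x : E, (x : LaurentSeries L) = coeffEmb L jq →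
      Module.finrank L⟮x⟯ E = psiN N ∧ FiniteDimensional L⟮x⟯ E from
    h _ (Lvl.FL_Gamma0 N L).symm (jL N L) rfl
  rintro E rfl x hx
  obtain rfl : x = Lvl.jL (Gamma0 N) L := Subtype.ext hx
  exact Lvl.finrank_FL (Gamma0 N) ι

/-- The function field of `X₀(N)` is a function field of one variable. -/
theorem isFunctionField_FN : Fermat.FF.IsFunctionField L (FN N L) := by
  rw [← Lvl.FL_Gamma0]
  exact Lvl.isFunctionField_FL (Gamma0 N) ι

end Degree

end Fermat.MC
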