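import Fermat.Agent.MC.X0.Field
import Fermat.Agent.MC.Lvl.Fibres

/-!
# The ramification of `j` on `X₀(N)` and the genus

Read on the level `Γ₀(N)`.

`genusFF_FN` is the classical formula (S24).
-/

set_option autoImplicit false

attribute [local instance 10000] SubalgebraClass.toAlgebra HahnSeries.powerSeriesAlgebra

noncomputable section

open Function Complex
open UpperHalfPlane hiding I
open AlgebraicCurve IntermediateField CongruenceSubgroup
open Fermat.FF
open scoped MatrixGroups

namespace Fermat.MC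

variable (N : ℕ) [NeZero N]

/-- The genus formula of the level `Γ₀(N)` is that of `X₀(N)`. -/
theorem genusFormula_Gamma0 : Lvl.genusFormulaG (Gamma0 N) = ModularCurve.genusFormula N := by
  rw [Lvl.genusFormulaG, ModularCurve.genusFormula, ← psiN_eq_dedekindPsi, Lvl.nuTwoG,
    Lvl.nuThreeG, Lvl.cuspsG, ← Fermat.MF.card_cuspOrbits (N := N),
    ← Fermat.MF.card_fixed_S (N := N), ← Fermat.MF.card_fixed_ST (N := N)]

variable {L : Type*} [Field L] [Algebra ℚ L] [IsAlgClosed L] [CharZero L] (ι : L →+* ℂ)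
  [IsFunctionField L (FN N L)]

include ι

omit [IsFunctionField L (FN N L)] [CharZero L] [IsAlgClosed L] in
/-- The number of cosets is the degree of `j - a`. -/
lemma card_coset_eq_finrank (a : L) :
    Fintype.card (CosetN N) =
      Module.finrank L⟮jL N L - algebraMap L (FN N L) a⟯ (FN N L) := by
  rw [adjoin_simple_sub_algebraMap, (finrank_FN N ι).1, psiN_eq_card]

omit [IsFunctionField L (FN N L)] [CharZero L] [IsAlgClosed L] in
/-- At the point of a coset above `z`, `j - a` has order `multJ z`. -/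
lemma ordT_tauPt_jL_sub {a : L} {z : ℍ} (hz : jA z = ι a) (q : CosetN N) :
    ordT (tauPt N ι z q) (jL N L - algebraMap L (FN N L) a) = (multJ z : ℤ) := by
  rw [ordT, tauPt_apply, map_sub, toFL_jL, AlgEquiv.commutes]
  exact Lvl.ordT_tauPt_jL_sub (Gamma0 N) ι hz q

/-- Over an elliptic point fixed by `δ`, the zeros of `j - a` are counted by the cosets fixed by
`δ`. -/
theorem card_zeros_elliptic {a : L} {z : ℍ} (hz : jA z = ι a) {δ : SL(2, ℤ)} (hfix : δ • z = z)
    {n : ℕ} (hn : n.Prime) (hm : multJ z = n) (hδ : ∀ q : CosetN N, δ ^ n • q = q)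
    (hprim : IsPrimitiveRoot (denom δ (z : ℂ) ^ 2) n) :
    ∃ T : Finset (Place L (FN N L)),
      (∀ P, P ∈ T ↔ 0 < P.ord (jL N L - algebraMap L (FN N L) a)) ∧
      (n * T.card : ℤ) = psiN N + (n - 1 : ℕ) * Nat.card {q : CosetN N // δ • q = q} ∧
      ∑ P ∈ T, P.ord (jL N L - algebraMap L (FN N L) a) = psiN N := by
  suffices h : ∀ E, E = Lvl.FL (Gamma0 N) L → IsFunctionField L E → ∀ x : E,
      (x : LaurentSeries L) = ModularCurve.coeffEmb L ModularCurve.jq →
      ∃ T : Finset (Place L E), (∀ P, P ∈ T ↔ 0 < P.ord (x - algebraMap L E a)) ∧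
        (n * T.card : ℤ) = psiN N + (n - 1 : ℕ) * Nat.card {q : CosetN N // δ • q = q} ∧
        ∑ P ∈ T, P.ord (x - algebraMap L E a) = psiN N from
    h _ (Lvl.FL_Gamma0 N L).symm inferInstance (jL N L) rfl
  rintro E rfl hE x hx
  obtain rfl : x = Lvl.jL (Gamma0 N) L := Subtype.ext hx
  exact Lvl.card_zeros_elliptic (Gamma0 N) ι hz hfix hn hm hδ hprim

/-- The genus of `X₀(N)`. -/
theorem genusFF_FN : (genusFF L (FN N L) : ℚ) = ModularCurve.genusFormula N := by
  suffices h : ∀ E, E = Lvl.FL (Gamma0 N) L → IsFunctionField L E →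
      (genusFF L E : ℚ) = ModularCurve.genusFormula N from
    h _ (Lvl.FL_Gamma0 N L).symm inferInstance
  rintro E rfl hE
  rw [← genusFormula_Gamma0]
  exact Lvl.genusFF_FL (Gamma0 N) ι

end Fermat.MC
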