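import Fermat.Agent.MC.X0.Genus
import Fermat.Agent.MC.Lvl.DimS2

/-!
# Weight two cusp forms and regular differentials on `X₀(N)` over `ℂ`

The comparison `f ↦ f / θ j` of the level `Γ₀(N)`, read on the function field of `X₀(N)`.

`finrank_cuspForm_two` with `MC/X0/Genus` gives S20, and Eichler–Shimura (S21) through
`MF/ParabolicDim`.
-/

set_option autoImplicit false

noncomputable section

open Function CongruenceSubgroup
open AlgebraicCurve IntermediateField
open Fermat.FF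
open ModularCurve (coeffEmb jq)
open scoped MatrixGroups

namespace Fermat.MC

variable (N : ℕ) [NeZero N]

/-- `f ↦ f Δ / (E₄² E₆)` on the field of `X₀(N)`. -/
def phiS2 : CuspForm (Gamma0 N) 2 →ₗ[ℂ] FN N ℂ :=
  (toFL N ℂ).symm.toLinearMap ∘ₗ Lvl.phiS2 (Gamma0 N)

/-- The series of `phiS2 f` is that of the level `Γ₀(N)`. -/
lemma coe_phiS2 (f : CuspForm (Gamma0 N) 2) :
    (phiS2 N f : LaurentSeries ℂ) = Lvl.phiS2 (Gamma0 N) f := by
  rw [← coe_toFL N ℂ, phiS2, LinearMap.comp_apply, AlgEquiv.toLinearMap_apply,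
    AlgEquiv.apply_symm_apply]

variable [IsFunctionField ℂ (FN N ℂ)]

/-- `dj` is not zero. -/
lemma D_jL_ne_zero : KaehlerDifferential.D ℂ (FN N ℂ) (jL N ℂ) ≠ 0 :=
  D_ne_zero_of_separable (transcendental_jL N) (separable_of_charZero (transcendental_jL N))

/-- The divisor of `dj`. -/
def divDj : Divisor ℂ (FN N ℂ) := canonicalDivisorOf (D_jL_ne_zero N)

/-- At a place where `j` takes the value `a` the order of `dj` is that of `j - a` minus one. -/
lemma divDj_finite {v : Place ℂ (FN N ℂ)} (h : 0 ≤ v.ord (jL N ℂ)) :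
    0 < v.ord (jL N ℂ - algebraMap ℂ (FN N ℂ) (evalAt v (jL N ℂ))) ∧
      divDj N v = v.ord (jL N ℂ - algebraMap ℂ (FN N ℂ) (evalAt v (jL N ℂ))) - 1 :=
  divD_finite (transcendental_jL N) _ h

/-- At a pole of `j` the order of `dj` is minus that of `1 / j`, minus one. -/
lemma divDj_pole {v : Place ℂ (FN N ℂ)} (h : v.ord (jL N ℂ) < 0) :
    0 < v.ord (jL N ℂ)⁻¹ ∧ divDj N v = -v.ord (jL N ℂ)⁻¹ - 1 :=
  divD_pole (transcendental_jL N) _ h

/-- The Riemann–Roch space of `div (dj)` consists of the series of the `phiS2 f`. -/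
lemma mem_riemannRochSpace_divDj_iff (y : FN N ℂ) : y ∈ riemannRochSpace (divDj N) ↔
    ∃ f, (Lvl.phiS2 (Gamma0 N) f : LaurentSeries ℂ) = y := by
  suffices h : ∀ E, E = Lvl.FL (Gamma0 N) ℂ → ∀ (_ : IsFunctionField ℂ E) (x : E),
      (x : LaurentSeries ℂ) = coeffEmb ℂ jq → ∀ (hD : KaehlerDifferential.D ℂ E x ≠ 0) (y : E),
        y ∈ riemannRochSpace (canonicalDivisorOf hD) ↔
          ∃ f, (Lvl.phiS2 (Gamma0 N) f : LaurentSeries ℂ) = y from
    h _ (Lvl.FL_Gamma0 N ℂ).symm inferInstance (jL N ℂ) rfl (D_jL_ne_zero N) y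
  rintro E rfl hE x hx hD y
  obtain rfl : x = Lvl.jL (Gamma0 N) ℂ := Subtype.ext hx
  exact ⟨fun hy => (Lvl.exists_phiS2_eq (Gamma0 N) y hy).imp fun f hf => congrArg Subtype.val hf,
    fun ⟨f, hf⟩ => Subtype.ext hf ▸ Lvl.phiS2_mem (Gamma0 N) f⟩

/-- `phiS2 f` lies in the Riemann–Roch space of the divisor of `dj`. -/
lemma phiS2_mem (f : CuspForm (Gamma0 N) 2) : phiS2 N f ∈ riemannRochSpace (divDj N) :=
  (mem_riemannRochSpace_divDj_iff N _).mpr ⟨f, (coe_phiS2 N f).symm⟩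

/-- Every function in that Riemann–Roch space comes from a cusp form of weight two. -/
lemma exists_phiS2_eq (h : FN N ℂ) (hh : h ∈ riemannRochSpace (divDj N)) :
    ∃ f, phiS2 N f = h :=
  ((mem_riemannRochSpace_divDj_iff N h).mp hh).imp fun f hf =>
    Subtype.ext ((coe_phiS2 N f).trans hf)

/-- The dimension of the space of weight two cusp forms is the genus. -/
theorem finrank_cuspForm_two :
    Module.finrank ℂ (CuspForm (Gamma0 N) 2) = genusFF ℂ (FN N ℂ) := by
  suffices h : ∀ E, E = Lvl.FL (Gamma0 N) ℂ → IsFunctionField ℂ E →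
      Module.finrank ℂ (CuspForm (Gamma0 N) 2) = genusFF ℂ E from
    h _ (Lvl.FL_Gamma0 N ℂ).symm inferInstance
  rintro E rfl hE
  exact Lvl.finrank_cuspForm_two (Gamma0 N)

end Fermat.MC
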